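import Fermat.Agent.Arith.Frobenius

/-!
# Residue fields, roots of unity and cyclotomic characters at a place over `q`
-/

set_option autoImplicit false

noncomputable section

namespace Fermat.Agent.Arith

open scoped Pointwise

variable {q : ℕ} {A : ValuationSubring QBar} {σ : GQ}

theorem residueField_charP (hA : A.LiesOverPrime q) (hq : q.Prime) :
    CharP (IsLocalRing.ResidueField A) q := by
  refine (CharP.charP_iff_prime_eq_zero hq).mpr ?_
  rw [← map_natCast (IsLocalRing.residue A) q, IsLocalRing.residue_eq_zero_iff,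
    ← ValuationSubring.coe_mem_nonunits_iff]
  exact hA

theorem exists_integral_residue (hA : A.LiesOverPrime q) (hq : q.Prime)
    (z : IsLocalRing.ResidueField A) :
    ∃ (x : QBar) (hx : IsIntegral ℤ x), IsLocalRing.residue A ⟨x, mem_of_isIntegral A hx⟩ = z := by
  -- every residue class of `A` contains an algebraic integer
  obtain ⟨⟨a₀, ha₀⟩, rfl⟩ := IsLocalRing.residue_surjective z
  obtain ⟨a, b, ha, hb, hbn, hab⟩ := exists_integral_fraction hA hq ha₀
  have hmax := centre_isMaximal hA hq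
  obtain ⟨⟨c, hc⟩, i, hi, hci⟩ :=
    hmax.exists_inv (x := (⟨b, hb⟩ : ZBar)) (fun hmem => hbn ((mem_centre A).mp hmem))
  refine ⟨a * c, ha.mul hc, residue_eq_iff.mpr ?_⟩
  have h1 : c * b - 1 = -(i : QBar) := by
    have := congrArg Subtype.val hci
    push_cast at this
    linear_combination this
  have h2 : a * c - a₀ = a₀ * (c * b - 1) := by
    rw [← hab]; ring
  show a * c - a₀ ∈ A.nonunits
  rw [h2, h1]
  exact nonunits_mul_left ha₀ (nonunits_neg ((mem_centre A).mp hi))

/-- The residue field at a place over a prime is algebraically closed. -/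
theorem residueField_isAlgClosed (A : ValuationSubring QBar) :
    IsAlgClosed (IsLocalRing.ResidueField A) := by
  refine IsAlgClosed.of_exists_root _ fun p hp hirr => ?_
  obtain ⟨P, hP, hPdeg, hPmon⟩ := Polynomial.lifts_and_degree_eq_and_monic
    (f := IsLocalRing.residue A)
    ((Polynomial.map_surjective _ IsLocalRing.residue_surjective) p) hp
  have hdeg : (P.map (algebraMap A QBar)).degree ≠ 0 := by
    rw [hPmon.degree_map, hPdeg]
    exact hirr.degree_pos.ne'
  obtain ⟨x, hx⟩ := IsAlgClosed.exists_root _ hdeg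
  have hxint : IsIntegral A x := ⟨P, hPmon, by rwa [Polynomial.IsRoot, Polynomial.eval_map] at hx⟩
  obtain ⟨y, rfl⟩ := (IsIntegrallyClosed.isIntegral_iff (R := A) (K := QBar)).mp hxint
  refine ⟨IsLocalRing.residue A y, ?_⟩
  have hy : P.eval y = 0 := by
    apply (IsFractionRing.injective A QBar)
    rw [map_zero, ← Polynomial.eval₂_at_apply, ← Polynomial.eval_map]
    exact hx
  rw [← hP, Polynomial.eval_map, Polynomial.eval₂_at_apply, hy, map_zero]

/-- Reduction is injective on roots of unity of order prime to `q`. -/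
theorem root_eq_one_of_sub_one_mem_nonunits (hA : A.LiesOverPrime q) (hq : q.Prime) {m : ℕ}
    {ζ : QBar} (hζ : ζ ^ m = 1) (hm : ¬ q ∣ m) (h : ζ - 1 ∈ A.nonunits) : ζ = 1 := by
  by_contra hne
  have hm0 : m ≠ 0 := fun h0 => hm (h0 ▸ dvd_zero q)
  have hζA : ζ ∈ A := mem_of_isIntegral A (IsIntegral.of_pow (Nat.pos_of_ne_zero hm0)
    (hζ ▸ isIntegral_one))
  have hsum : ∑ i ∈ Finset.range m, ζ ^ i = 0 := by
    rw [geom_sum_eq hne, hζ, sub_self, zero_div]
  have h1 : ∀ i, ζ ^ i - 1 ∈ A.nonunits := fun i => by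
    rw [← geom_sum_mul]
    exact nonunits_mul_left (sum_mem fun j _ => pow_mem hζA j) h
  have h2 : (∑ i ∈ Finset.range m, (ζ ^ i - 1)) ∈ A.nonunits :=
    sum_mem fun i _ => h1 i
  rw [Finset.sum_sub_distrib, hsum, zero_sub, Finset.sum_const, Finset.card_range,
    nsmul_eq_mul, mul_one] at h2
  have h3 := nonunits_neg h2
  rw [neg_neg] at h3
  exact hm ((natCast_mem_nonunits_iff hA hq m).mp h3)

theorem root_congr (hA : A.LiesOverPrime q) (hq : q.Prime) {m : ℕ} {ζ ξ : QBar} (hζ : ζ ^ m = 1)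
    (hξ : ξ ^ m = 1) (hm : ¬ q ∣ m) (h : ζ - ξ ∈ A.nonunits) : ζ = ξ := by
  have hm0 : m ≠ 0 := fun h0 => hm (h0 ▸ dvd_zero q)
  have hξ0 : ξ ≠ 0 := fun h0 => by simp [h0, hm0] at hξ
  have hξi : ξ⁻¹ ∈ A := mem_of_isIntegral A (IsIntegral.of_pow (Nat.pos_of_ne_zero hm0)
    (by rw [inv_pow, hξ, inv_one]; exact isIntegral_one))
  have := root_eq_one_of_sub_one_mem_nonunits hA hq (ζ := ζ * ξ⁻¹)
    (by rw [mul_pow, inv_pow, hζ, hξ, inv_one, mul_one]) hm (by
      rw [← mul_inv_cancel₀ hξ0, ← sub_mul]; exact nonunits_mul_right h hξi)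
  rwa [mul_inv_eq_one₀ hξ0] at this

/-- A Frobenius at `q` raises roots of unity of order prime to `q` to the `q`-th power. -/
theorem frobenius_root (hA : A.LiesOverPrime q) (hq : q.Prime) (hσ : A.IsFrobeniusAt σ q) {m : ℕ}
    {ζ : QBar} (hζ : ζ ^ m = 1) (hm : ¬ q ∣ m) : σ ζ = ζ ^ q := by
  refine root_congr hA hq (by rw [← map_pow, hζ, map_one]) (by rw [pow_right_comm, hζ, one_pow]) hm
    ((isFrobeniusAt_iff hA hq).mp hσ ζ ?_)
  exact IsIntegral.of_pow (Nat.pos_of_ne_zero (fun h0 => hm (by rw [h0]; exact dvd_zero q)))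
    (hζ ▸ isIntegral_one)

/-- Inertia at `q` fixes roots of unity of order prime to `q`. -/
theorem inertia_root (hA : A.LiesOverPrime q) (hq : q.Prime)
    (hσ : σ ∈ A.inertiaSubgroupIn ℚ) {m : ℕ}
    {ζ : QBar} (hζ : ζ ^ m = 1) (hm : ¬ q ∣ m) : σ ζ = ζ := by
  refine root_congr hA hq (by rw [← map_pow, hζ, map_one]) hζ hm
    ((mem_inertia_iff hA hq).mp hσ ζ ?_)
  exact IsIntegral.of_pow (Nat.pos_of_ne_zero (fun h0 => hm (by rw [h0]; exact dvd_zero q)))
    (hζ ▸ isIntegral_one)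

theorem modularCyclotomicCharacter_eq_natCast {n : ℕ} [NeZero n]
    (hn : Nat.card (rootsOfUnity n QBar) = n) {g : QBar ≃+* QBar} {c : ℕ}
    (h : ∀ ζ : QBar, ζ ^ n = 1 → g ζ = ζ ^ c) :
    ((modularCyclotomicCharacter QBar hn g : (ZMod n)ˣ) : ZMod n) = c := by
  refine (modularCyclotomicCharacter.unique QBar hn g fun t ht => ?_).symm
  have ht' : (t : QBar) ^ n = 1 := (mem_rootsOfUnity' n t).mp ht
  rw [ZMod.val_natCast, h (t : QBar) ht']
  conv_lhs => rw [← Nat.mod_add_div c n, pow_add, pow_mul, ht', one_pow, mul_one]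

theorem modularCyclotomicCharacter_frobenius (hA : A.LiesOverPrime q) (hq : q.Prime)
    (hσ : A.IsFrobeniusAt σ q) {n : ℕ} [NeZero n] (hn : Nat.card (rootsOfUnity n QBar) = n)
    (hqn : ¬ q ∣ n) :
    ((modularCyclotomicCharacter QBar hn (σ : QBar ≃+* QBar) : (ZMod n)ˣ) : ZMod n) = q :=
  modularCyclotomicCharacter_eq_natCast hn fun _ hζ => frobenius_root hA hq hσ hζ hqn

theorem modularCyclotomicCharacter_inertia (hA : A.LiesOverPrime q) (hq : q.Prime)
    (hσ : σ ∈ A.inertiaSubgroupIn ℚ) {n : ℕ} [NeZero n] (hn : Nat.card (rootsOfUnity n QBar) = n)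
    (hqn : ¬ q ∣ n) :
    modularCyclotomicCharacter QBar hn (σ : QBar ≃+* QBar) = 1 := by
  ext
  rw [Units.val_one, ← Nat.cast_one,
    modularCyclotomicCharacter_eq_natCast hn (c := 1) fun ζ hζ => by
      rw [pow_one]; exact inertia_root hA hq hσ hζ hqn]

end Fermat.Agent.Arith
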